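/-
S25 block G (geometry of the curve): shared DEFINITIONS.   Owner: helper26.

Everything is phrased inside the function field `K = C.functionField` of the integral curve `C`.
* `kΓ c U : k →+* Γ(C, U)`   the structure map on sections
* `Sec c U`                  the ring `Γ(C, U)` as a `k`-algebra (type synonym remembering `c`)
* `toK U`, `kK c`            sections / constants in the function field
* `RegAt f x`                `f ∈ K` lies in the local ring at `x`
* `IsSec f U s`, `RegOn f U` `f ∈ K` is (the image of) the section `s` over `U`
* `dom f`                    the domain of definition of `f`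
* `NonConst c f`             `f` is not a constant
* `CurveFacts c`             the basic facts on smooth proper curves used downstream
* `pt e`, `evalΓ e W h`      the marked point and the evaluation at it
-/
import Mathlib

set_option autoImplicit false

universe u

open CategoryTheory CategoryTheory.Limits AlgebraicGeometry TopologicalSpace

namespace Fermat.Agent.S25.Geom

variable {k : Type u} [Field k] {C : Scheme.{u}} (c : C ⟶ Spec (CommRingCat.of k))

/-- The structure map `k → Γ(C, U)`. -/
noncomputable def kΓ (U : C.Opens) : k →+* Γ(C, U) :=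
  (c.appLE ⊤ U le_top).hom.comp (Scheme.ΓSpecIso (CommRingCat.of k)).inv.hom

theorem res_kΓ {U V : C.Opens} (h : V ≤ U) (a : k) :
    C.presheaf.map (homOfLE h).op (kΓ c U a) = kΓ c V a := by
  have := Scheme.Hom.appLE_map c (U := ⊤) (V := U) le_top (homOfLE h).op
  exact congr($(this).hom ((Scheme.ΓSpecIso (CommRingCat.of k)).inv.hom a))

/-- The ring `Γ(C, U)`, remembering the structure morphism `c` (so that it is a `k`-algebra). -/
def Sec (_c : C ⟶ Spec (CommRingCat.of k)) (U : C.Opens) : Type u := Γ(C, U)

noncomputable instance (U : C.Opens) : CommRing (Sec c U) := inferInstanceAs (CommRing Γ(C, U))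

noncomputable instance (U : C.Opens) : Algebra k (Sec c U) := (kΓ c U).toAlgebra

noncomputable instance algLeft (U V : C.Opens) : Algebra (Sec c U) (Sec c (U ⊓ V)) :=
  (C.presheaf.map (homOfLE (inf_le_left : U ⊓ V ≤ U)).op).hom.toAlgebra

noncomputable instance algRight (U V : C.Opens) : Algebra (Sec c V) (Sec c (U ⊓ V)) :=
  (C.presheaf.map (homOfLE (inf_le_right : U ⊓ V ≤ V)).op).hom.toAlgebra

instance towerLeft (U V : C.Opens) : IsScalarTower k (Sec c U) (Sec c (U ⊓ V)) :=
  IsScalarTower.of_algebraMap_eq fun a => (res_kΓ c inf_le_left a).symm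

instance towerRight (U V : C.Opens) : IsScalarTower k (Sec c V) (Sec c (U ⊓ V)) :=
  IsScalarTower.of_algebraMap_eq fun a => (res_kΓ c inf_le_right a).symm

/-- Constants in the local ring at `x`. -/
noncomputable def kStalk (x : C) : k →+* C.presheaf.stalk x :=
  (C.presheaf.germ ⊤ x trivial).hom.comp (kΓ c ⊤)

/-- The marked point of a section `e : Spec k ⟶ C`. -/
noncomputable def pt (e : Spec (CommRingCat.of k) ⟶ C) : C :=
  e (IsLocalRing.closedPoint k)

/-- Evaluation of sections at the marked point. -/
noncomputable def evalΓ (e : Spec (CommRingCat.of k) ⟶ C) (W : C.Opens) (h : ⊤ ≤ e ⁻¹ᵁ W) :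
    Γ(C, W) →+* k :=
  (Scheme.ΓSpecIso (CommRingCat.of k)).hom.hom.comp (e.appLE W ⊤ h).hom

/-- The morphism `W ⟶ 𝔸¹ = Spec k[X]` defined by a section `s` over the open `W`. -/
noncomputable def secMap (W : C.Opens) (s : Γ(C, W)) :
    W.toScheme ⟶ Spec (CommRingCat.of (Polynomial k)) :=
  W.toSpecΓ ≫ Spec.map (CommRingCat.ofHom (Polynomial.eval₂RingHom (kΓ c W) s))

/-- The curve is covered by spectra of Dedekind domains of finite type over `k`, not equal
to `k`. -/
def DedekindCharts : Prop :=
  ∀ x : C, ∃ U : C.Opens, IsAffineOpen U ∧ x ∈ U ∧ IsDedekindDomain Γ(C, U) ∧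
    (kΓ c U).FiniteType ∧ ¬ Function.Surjective (kΓ c U)

variable [IsIntegral C]

/-- The image of a section over a nonempty open in the function field. -/
noncomputable def toK (U : C.Opens) [Nonempty U] : Γ(C, U) →+* C.functionField :=
  (C.germToFunctionField U).hom

/-- Constants in the function field. -/
noncomputable def kK : k →+* C.functionField :=
  (algebraMap (C.presheaf.stalk (genericPoint C)) C.functionField).comp (kStalk c (genericPoint C))

/-- `f` is regular at the point `x`. -/
def RegAt (f : C.functionField) (x : C) : Prop :=
  f ∈ Set.range (algebraMap (C.presheaf.stalk x) C.functionField)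

/-- `s` is a section over `U` representing the rational function `f`. -/
def IsSec (f : C.functionField) (U : C.Opens) (s : Γ(C, U)) : Prop :=
  ∀ (x : C) (hx : x ∈ U), algebraMap (C.presheaf.stalk x) C.functionField
    (C.presheaf.germ U x hx s) = f

/-- `f` is regular on the open `U`. -/
def RegOn (f : C.functionField) (U : C.Opens) : Prop :=
  ∃ s : Γ(C, U), IsSec f U s

/-- The domain of definition of a rational function. -/
def dom (f : C.functionField) : C.Opens :=
  sSup {U | RegOn f U}

/-- `f` is not a constant. -/
def NonConst (f : C.functionField) : Prop :=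
  ∀ a : k, f ≠ kK c a

/-- The basic facts about a smooth proper integral curve over an algebraically closed field. -/
structure CurveFacts : Prop where
  /-- the local rings are valuation rings of the function field -/
  val : ∀ (x : C) (f : C.functionField), RegAt f x ∨ RegAt f⁻¹ x
  /-- nonempty opens are cofinite -/
  cofinite : ∀ U : C.Opens, U ≠ ⊥ → ((U : Set C)ᶜ).Finite
  /-- the non-generic points are rational -/
  resField : ∀ x : C, x ≠ genericPoint C → ∀ t : C.presheaf.stalk x,
    ∃ a : k, t - kStalk c x a ∈ IsLocalRing.maximalIdeal (C.presheaf.stalk x)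
  /-- global sections are constant -/
  const : ∀ s : Γ(C, ⊤), ∃ a : k, s = kΓ c ⊤ a
  /-- there are non-constant rational functions -/
  nonconst : ∃ f : C.functionField, NonConst c f

end Fermat.Agent.S25.Geom
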