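/-
S25 block G, node J: points of affine opens, evaluation at the marked point, smoothness.
-/
import Fermat.Agent.S25.Geom.Defs

set_option autoImplicit false

universe u

open CategoryTheory CategoryTheory.Limits AlgebraicGeometry TopologicalSpace

namespace Fermat.Agent.S25.Geom

variable {k : Type u} [Field k] {C : Scheme.{u}} (c : C ⟶ Spec (CommRingCat.of k))

/-- primes of the coordinate ring of an affine open are points -/
theorem exists_point_of_prime {W : C.Opens} (hW : IsAffineOpen W) (𝔮 : Ideal Γ(C, W))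
    (h𝔮 : 𝔮.IsPrime) : ∃ p ∈ W, ∀ s : Γ(C, W), s ∈ 𝔮 ↔ p ∉ C.basicOpen s := by
  refine ⟨hW.fromSpec ⟨𝔮, h𝔮⟩, ?_, fun s => ?_⟩
  · have : hW.fromSpec ⟨𝔮, h𝔮⟩ ∈ Set.range hW.fromSpec := ⟨_, rfl⟩
    rw [hW.range_fromSpec] at this
    exact this
  · have h1 : (hW.fromSpec ⟨𝔮, h𝔮⟩ ∈ C.basicOpen s) ↔
        ((⟨𝔮, h𝔮⟩ : PrimeSpectrum Γ(C, W)) ∈ PrimeSpectrum.basicOpen s) := by
      rw [← hW.fromSpec_preimage_basicOpen]
      rfl
    rw [h1, PrimeSpectrum.mem_basicOpen]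
    simp

variable (e : Spec (CommRingCat.of k) ⟶ C)

/-- the spectrum of a field has only one point -/
theorem affine_eq_closedPoint (x : Spec (CommRingCat.of k)) : x = IsLocalRing.closedPoint k :=
  Subsingleton.elim (α := PrimeSpectrum k) _ _

theorem pt_mem_iff (W : C.Opens) : ⊤ ≤ e ⁻¹ᵁ W ↔ pt e ∈ W := by
  constructor
  · intro h
    exact h (show IsLocalRing.closedPoint k ∈ (⊤ : (Spec (CommRingCat.of k)).Opens) from trivial)
  · intro h x _
    rw [affine_eq_closedPoint x]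
    exact h

theorem evalΓ_eq_zero_iff (W : C.Opens) (h : ⊤ ≤ e ⁻¹ᵁ W) (s : Γ(C, W)) :
    evalΓ e W h s = 0 ↔ pt e ∉ C.basicOpen s := by
  have h1 : (pt e ∈ C.basicOpen s) ↔
      (IsLocalRing.closedPoint k : Spec (CommRingCat.of k)) ∈
        (Spec (CommRingCat.of k)).basicOpen (e.appLE W ⊤ h s) := by
    rw [Scheme.basicOpen_appLE]
    constructor
    · intro hx; exact ⟨trivial, hx⟩
    · intro hx; exact hx.2
  have h2 : ((IsLocalRing.closedPoint k : Spec (CommRingCat.of k)) ∈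
        (Spec (CommRingCat.of k)).basicOpen (e.appLE W ⊤ h s)) ↔
      evalΓ e W h s ∉ IsLocalRing.maximalIdeal k := by
    rw [basicOpen_eq_of_affine']
    exact Iff.rfl
  rw [h1, h2, not_not, IsLocalRing.maximalIdeal_eq_bot, Ideal.mem_bot]

variable {c e}

theorem evalΓ_kΓ (he : e ≫ c = 𝟙 _) (W : C.Opens) (h : ⊤ ≤ e ⁻¹ᵁ W) (a : k) :
    evalΓ e W h (kΓ c W a) = a := by
  have h1 := Scheme.Hom.appLE_comp_appLE e c ⊤ W ⊤ le_top h
  have h2 : ∀ (f : Spec (CommRingCat.of k) ⟶ Spec (CommRingCat.of k)) (_ : f = 𝟙 _)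
      (hle : (⊤ : (Spec (CommRingCat.of k)).Opens) ≤ f ⁻¹ᵁ ⊤), f.appLE ⊤ ⊤ hle = 𝟙 _ := by
    intro f hf hle
    subst hf
    simp only [Scheme.Hom.appLE, Scheme.Hom.id_app]
    exact (Spec (CommRingCat.of k)).presheaf.map_id _
  rw [h2 _ he] at h1
  have h3 := congr($(h1).hom ((Scheme.ΓSpecIso (CommRingCat.of k)).inv.hom a))
  show (Scheme.ΓSpecIso (CommRingCat.of k)).hom.hom ((e.appLE W ⊤ h).hom
    ((c.appLE ⊤ W le_top).hom ((Scheme.ΓSpecIso (CommRingCat.of k)).inv.hom a))) = a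
  simp only [CommRingCat.hom_comp, RingHom.comp_apply, CommRingCat.hom_id, RingHom.id_apply] at h3
  rw [h3]
  simp

/-- evaluation at the marked point as a `k`-algebra homomorphism -/
noncomputable def evalAlg (he : e ≫ c = 𝟙 _) (W : C.Opens) (h : ⊤ ≤ e ⁻¹ᵁ W) : Sec c W →ₐ[k] k :=
  { evalΓ e W h with commutes' := evalΓ_kΓ he W h }

theorem evalAlg_apply (he : e ≫ c = 𝟙 _) (W : C.Opens) (h : ⊤ ≤ e ⁻¹ᵁ W) (s : Sec c W) :
    evalAlg he W h s = evalΓ e W h s := rfl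

/-- the marked point is rational: every germ at it is a constant plus a non-unit -/
theorem exists_sub_kStalk_mem_maximalIdeal (he : e ≫ c = 𝟙 _) (t : C.presheaf.stalk (pt e)) :
    ∃ a : k, t - kStalk c (pt e) a ∈ IsLocalRing.maximalIdeal (C.presheaf.stalk (pt e)) := by
  obtain ⟨V, hV, s, rfl⟩ := C.presheaf.exists_germ_eq t
  have h : ⊤ ≤ e ⁻¹ᵁ V := (pt_mem_iff e V).2 hV
  refine ⟨evalΓ e V h s, ?_⟩
  set a := evalΓ e V h s with ha
  have h0 : evalΓ e V h (s - kΓ c V a) = 0 := by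
    rw [map_sub, evalΓ_kΓ he, ← ha, sub_self]
  rw [evalΓ_eq_zero_iff, Scheme.mem_basicOpen _ _ _ hV] at h0
  have h1 : kStalk c (pt e) a = C.presheaf.germ V (pt e) hV (kΓ c V a) := by
    rw [← res_kΓ c (le_top : V ≤ ⊤) a, TopCat.Presheaf.germ_res_apply]
    rfl
  rw [h1, ← map_sub, IsLocalRing.mem_maximalIdeal, mem_nonunits_iff]
  exact h0

variable (c)

theorem smooth_sec [Smooth c] {W : C.Opens} (hW : IsAffineOpen W) : Algebra.Smooth k (Sec c W) := by
  have h1 : (c.appLE ⊤ W le_top).hom.Smooth :=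
    c.smooth_appLE (isAffineOpen_top (Spec (CommRingCat.of k))) hW le_top
  have h2 : ((Scheme.ΓSpecIso (CommRingCat.of k)).inv.hom).Smooth :=
    RingHom.Smooth.of_bijective
      (ConcreteCategory.bijective_of_isIso (Scheme.ΓSpecIso (CommRingCat.of k)).inv)
  have h3 : (kΓ c W).Smooth := h2.comp h1
  exact h3

end Fermat.Agent.S25.Geom
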