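import Mathlib

/-!
# S25 block G, part B: smooth of relative dimension one over an algebraically closed field

Pure commutative algebra.  A domain `B` that is standard smooth of relative dimension `1`
over an algebraically closed field `k` is a Dedekind domain, and `k → B` is never onto.

* `isDedekindDomain_of_forall_maximal_principal` : a noetherian domain all of whose
  localisations at maximal ideals have principal maximal ideal is Dedekind.
* `maximalIdeal_isPrincipal_of_le_sup_sq` : Nakayama, `m ≤ (t) + m²` gives `m B_m = (t)`.
* `exists_le_span_sup_sq_of_smooth` : the conormal sequence, `dim m/m² ≤ 1`.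
* `isDedekindDomain_of_smooth`, `not_surjective_algebraMap_of_smooth` : the two results.
-/

set_option autoImplicit false

universe u

namespace Fermat.Agent.S25.Geom

open IsLocalRing TensorProduct

/-- A noetherian domain whose localisations at all maximal ideals have a principal maximal
ideal is a Dedekind domain. -/
theorem isDedekindDomain_of_forall_maximal_principal (A : Type u) [CommRing A] [IsDomain A]
    [IsNoetherianRing A]
    (h : ∀ (m : Ideal A) [m.IsMaximal],
      (IsLocalRing.maximalIdeal (Localization.AtPrime m)).IsPrincipal) : IsDedekindDomain A := by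
  have hD : ∀ (m : Ideal A) [m.IsMaximal], IsDedekindDomain (Localization.AtPrime m) := by
    intro m _
    have : IsNoetherianRing (Localization.AtPrime m) :=
      IsLocalization.isNoetherianRing m.primeCompl _ inferInstance
    exact ((tfae_of_isNoetherianRing_of_isLocalRing_of_isDomain
      (Localization.AtPrime m)).out 4 2).mp (h m)
  have : Ring.DimensionLEOne A :=
    { maximalOfPrime := by
        intro p hp hpp
        rcases p.exists_le_maximal (Ideal.IsPrime.ne_top hpp) with ⟨q, hq, hpq⟩
        have := hD q
        let f := (IsLocalization.orderIsoOfPrime q.primeCompl (Localization.AtPrime q)).symm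
        let P := f ⟨p, hpp, hpq.disjoint_compl_left⟩
        let Q := f ⟨q, hq.isPrime, Set.disjoint_left.mpr fun _ a => a⟩
        have hinj : Function.Injective (algebraMap A (Localization.AtPrime q)) :=
          IsLocalization.injective (Localization.AtPrime q) q.primeCompl_le_nonZeroDivisors
        have hp1 : P.1 ≠ ⊥ := fun x => hp ((p.map_eq_bot_iff_of_injective hinj).mp x)
        have hq1 : Q.1 ≠ ⊥ :=
          fun x => (ne_bot_of_le_ne_bot hp hpq) ((q.map_eq_bot_iff_of_injective hinj).mp x)
        have hP : P.1 = maximalIdeal _ := eq_maximalIdeal (P.2.isMaximal hp1)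
        have hQ : Q.1 = maximalIdeal _ := eq_maximalIdeal (Q.2.isMaximal hq1)
        rw [show p = q from Subtype.val_inj.mpr <| f.injective <|
          Subtype.val_inj.mp (hP.trans hQ.symm)]
        exact hq }
  have : IsIntegrallyClosed A :=
    IsIntegrallyClosed.of_localization_maximal fun p _ hpm ↦ by
      have := hD p
      infer_instance
  exact { }

/-- Nakayama: if `m ≤ (t) + m²` for a maximal ideal `m` of a noetherian ring, `t ∈ m`, then
the maximal ideal of the localisation at `m` is generated by `t`. -/
theorem maximalIdeal_isPrincipal_of_le_sup_sq (A : Type u) [CommRing A] [IsNoetherianRing A]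
    (m : Ideal A) [m.IsMaximal] (t : A) (htm : t ∈ m) (ht : m ≤ Ideal.span {t} ⊔ m ^ 2) :
    (maximalIdeal (Localization.AtPrime m)).IsPrincipal := by
  have : IsNoetherianRing (Localization.AtPrime m) :=
    IsLocalization.isNoetherianRing m.primeCompl _ inferInstance
  refine ⟨algebraMap A _ t, ?_⟩
  have hmap := Localization.AtPrime.map_eq_maximalIdeal (I := m)
  apply le_antisymm
  · apply Submodule.le_of_le_smul_of_le_jacobson_bot (I := maximalIdeal (Localization.AtPrime m))
      (IsNoetherian.noetherian _) (IsLocalRing.maximalIdeal_le_jacobson _)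
    have := Ideal.map_mono (f := algebraMap A (Localization.AtPrime m)) ht
    rw [Ideal.map_sup, Ideal.map_pow, hmap, Ideal.map_span, Set.image_singleton, pow_two] at this
    exact this
  · rw [Submodule.span_le, Set.singleton_subset_iff, ← hmap]
    exact Ideal.mem_map_of_mem _ htm

/-- For `B` standard smooth of relative dimension `1` over an algebraically closed field, the
cotangent space `m/m²` at each maximal ideal is spanned by one element. -/
theorem exists_le_span_sup_sq_of_smooth (k B : Type u) [Field k] [IsAlgClosed k] [CommRing B]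
    [Nontrivial B] [Algebra k B] [Algebra.IsStandardSmoothOfRelativeDimension 1 k B]
    (m : Ideal B) [m.IsMaximal] :
    ∃ t ∈ m, m ≤ Ideal.span {t} ⊔ m ^ 2 := by
  have : Algebra.IsStandardSmooth k B :=
    Algebra.IsStandardSmoothOfRelativeDimension.isStandardSmooth 1
  have hft : Algebra.FiniteType k B := inferInstance
  let _ : Field (B ⧸ m) := Ideal.Quotient.field m
  have hfin : Module.Finite k (B ⧸ m) := finite_of_finite_type_of_isJacobsonRing k (B ⧸ m)
  have hbij : Function.Bijective (algebraMap k (B ⧸ m)) :=
    IsAlgClosed.algebraMap_bijective_of_isIntegral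
  have hsm : Algebra.FormallySmooth k (B ⧸ m) :=
    Algebra.FormallySmooth.of_equiv (AlgEquiv.ofBijective (Algebra.ofId k (B ⧸ m)) hbij)
  have hsurj : Function.Surjective (algebraMap B (B ⧸ m)) := Ideal.Quotient.mk_surjective
  have hinj : Function.Injective (KaehlerDifferential.kerCotangentToTensor k B (B ⧸ m)) :=
    (Algebra.FormallySmooth.kerCotangentToTensor_injective_iff hsurj).mpr inferInstance
  have hrank : Module.rank B Ω[B⁄k] = Module.rank B B := by
    rw [Algebra.IsStandardSmoothOfRelativeDimension.rank_kaehlerDifferential 1, Module.rank_self]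
    simp
  obtain ⟨e⟩ := nonempty_linearEquiv_of_rank_eq hrank
  let E : (B ⧸ m) ⊗[B] Ω[B⁄k] ≃ₗ[B] (B ⧸ m) :=
    (TensorProduct.congr (LinearEquiv.refl B (B ⧸ m)) e) ≪≫ₗ TensorProduct.rid B (B ⧸ m)
  have key : ∃ φ : (RingHom.ker (algebraMap B (B ⧸ m))).Cotangent →ₗ[B] (B ⧸ m),
      Function.Injective φ :=
    ⟨E.toLinearMap ∘ₗ KaehlerDifferential.kerCotangentToTensor k B (B ⧸ m), E.injective.comp hinj⟩
  have hker : RingHom.ker (algebraMap B (B ⧸ m)) = m := Ideal.mk_ker
  rw [hker] at key
  obtain ⟨φ, hφ⟩ := key
  by_cases h0 : ∀ x : m, φ (m.toCotangent x) = 0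
  · refine ⟨0, m.zero_mem, fun y hy => ?_⟩
    have h1 : m.toCotangent ⟨y, hy⟩ = 0 := hφ (by rw [h0, map_zero])
    rw [Ideal.toCotangent_eq_zero] at h1
    exact Ideal.mem_sup_right h1
  · obtain ⟨x, hx⟩ := not_forall.mp h0
    refine ⟨x.1, x.2, fun y hy => ?_⟩
    obtain ⟨b, hb⟩ := hsurj (φ (m.toCotangent ⟨y, hy⟩) / φ (m.toCotangent x))
    have h1 : m.toCotangent ⟨y, hy⟩ = m.toCotangent (b • x) := by
      apply hφ
      rw [map_smul, map_smul, Algebra.smul_def, hb, div_mul_cancel₀ _ hx]
    rw [Ideal.toCotangent_eq] at h1
    have h2 : y = b * x.1 + (y - b * x.1) := by ring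
    rw [h2]
    exact Ideal.add_mem _
      (Ideal.mem_sup_left (Ideal.mul_mem_left _ _ (Ideal.mem_span_singleton_self _)))
      (Ideal.mem_sup_right h1)

/-- A domain that is standard smooth of relative dimension `1` over an algebraically closed
field is a Dedekind domain. -/
theorem isDedekindDomain_of_smooth (k B : Type u) [Field k] [IsAlgClosed k] [CommRing B] [IsDomain B]
    [Algebra k B] [Algebra.IsStandardSmoothOfRelativeDimension 1 k B] : IsDedekindDomain B := by
  have : Algebra.IsStandardSmooth k B :=
    Algebra.IsStandardSmoothOfRelativeDimension.isStandardSmooth 1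
  have hft : Algebra.FiniteType k B := inferInstance
  have : IsNoetherianRing B := Algebra.FiniteType.isNoetherianRing k B
  refine isDedekindDomain_of_forall_maximal_principal B fun m _ => ?_
  obtain ⟨t, htm, ht⟩ := exists_le_span_sup_sq_of_smooth k B m
  exact maximalIdeal_isPrincipal_of_le_sup_sq B m t htm ht

/-- A nontrivial algebra that is standard smooth of relative dimension `1` over a field is not
a quotient of that field. -/
theorem not_surjective_algebraMap_of_smooth (k B : Type u) [Field k] [CommRing B] [Nontrivial B]
    [Algebra k B] [Algebra.IsStandardSmoothOfRelativeDimension 1 k B] :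
    ¬ Function.Surjective (algebraMap k B) := by
  intro h
  have hs : Subsingleton Ω[B⁄k] := KaehlerDifferential.subsingleton_of_surjective k B h
  have hrank : Module.rank B Ω[B⁄k] = ((1 : ℕ) : Cardinal) :=
    Algebra.IsStandardSmoothOfRelativeDimension.rank_kaehlerDifferential 1
  rw [rank_subsingleton'] at hrank
  simp at hrank

end Fermat.Agent.S25.Geom
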