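/-
S25 block G, node A: dictionary between rational functions and sections.  (task S25-G-A, helper142)
-/
import Fermat.Agent.S25.Geom.Defs

set_option autoImplicit false

universe u

open CategoryTheory CategoryTheory.Limits AlgebraicGeometry TopologicalSpace

namespace Fermat.Agent.S25.Geom

variable {k : Type u} [Field k] {C : Scheme.{u}} (c : C ⟶ Spec (CommRingCat.of k)) [IsIntegral C]

section
variable {c}
variable {f g : C.functionField} {U V : C.Opens} {s t : Γ(C, U)} {x : C}

theorem reg_genericPoint_mem [h : Nonempty U] : genericPoint C ∈ U :=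
  ((genericPoint_spec C).mem_open_set_iff U.isOpen).mpr (by simpa using h)

theorem reg_algebraMap_injective (x : C) :
    Function.Injective (algebraMap (C.presheaf.stalk x) C.functionField) :=
  IsFractionRing.injective (C.presheaf.stalk x) C.functionField

theorem isSec_iff_toK [Nonempty U] : IsSec f U s ↔ toK U s = f := by
  constructor
  · intro h
    have := h (genericPoint C) reg_genericPoint_mem
    rwa [Scheme.algebraMap_germ_eq_germToFunctionField] at this
  · intro h x hx
    rw [Scheme.algebraMap_germ_eq_germToFunctionField]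
    exact h

theorem toK_injective [Nonempty U] : Function.Injective (toK U) :=
  Scheme.germToFunctionField_injective C U

theorem IsSec.unique (hs : IsSec f U s) (ht : IsSec f U t) : s = t := by
  refine TopCat.Presheaf.section_ext C.sheaf U s t ?_
  intro x hx
  exact reg_algebraMap_injective x ((hs x hx).trans (ht x hx).symm)

/-- on a nonempty open, a section represents only one function -/
theorem IsSec.eq_of_mem (hs : IsSec f U s) (ht : IsSec g U s) (hx : x ∈ U) : f = g :=
  (hs x hx).symm.trans (ht x hx)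

theorem IsSec.res (hs : IsSec f U s) (h : V ≤ U) :
    IsSec f V (C.presheaf.map (homOfLE h).op s) := by
  intro x hx
  rw [TopCat.Presheaf.germ_res_apply]
  exact hs x (h hx)

theorem IsSec.add (hs : IsSec f U s) (ht : IsSec g U t) : IsSec (f + g) U (s + t) := by
  intro x hx
  rw [map_add, map_add, hs x hx, ht x hx]

theorem IsSec.mul (hs : IsSec f U s) (ht : IsSec g U t) : IsSec (f * g) U (s * t) := by
  intro x hx
  rw [map_mul, map_mul, hs x hx, ht x hx]

theorem IsSec.sub (hs : IsSec f U s) (ht : IsSec g U t) : IsSec (f - g) U (s - t) := by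
  intro x hx
  rw [map_sub, map_sub, hs x hx, ht x hx]

theorem IsSec.neg (hs : IsSec f U s) : IsSec (-f) U (-s) := by
  intro x hx
  rw [map_neg, map_neg, hs x hx]

theorem IsSec.pow (hs : IsSec f U s) (n : ℕ) : IsSec (f ^ n) U (s ^ n) := by
  intro x hx
  rw [map_pow, map_pow, hs x hx]

theorem isSec_zero : IsSec (0 : C.functionField) U 0 := by
  intro x hx
  rw [map_zero, map_zero]

theorem isSec_one : IsSec (1 : C.functionField) U 1 := by
  intro x hx
  rw [map_one, map_one]

theorem RegAt.add (hf : RegAt f x) (hg : RegAt g x) : RegAt (f + g) x := by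
  obtain ⟨a, rfl⟩ := hf
  obtain ⟨b, rfl⟩ := hg
  exact ⟨a + b, map_add _ _ _⟩

theorem RegAt.mul (hf : RegAt f x) (hg : RegAt g x) : RegAt (f * g) x := by
  obtain ⟨a, rfl⟩ := hf
  obtain ⟨b, rfl⟩ := hg
  exact ⟨a * b, map_mul _ _ _⟩

theorem RegAt.sub (hf : RegAt f x) (hg : RegAt g x) : RegAt (f - g) x := by
  obtain ⟨a, rfl⟩ := hf
  obtain ⟨b, rfl⟩ := hg
  exact ⟨a - b, map_sub _ _ _⟩

theorem RegAt.neg (hf : RegAt f x) : RegAt (-f) x := by
  obtain ⟨a, rfl⟩ := hf
  exact ⟨-a, map_neg _ _⟩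

theorem RegAt.pow (hf : RegAt f x) (n : ℕ) : RegAt (f ^ n) x := by
  obtain ⟨a, rfl⟩ := hf
  exact ⟨a ^ n, map_pow _ _ _⟩

theorem regAt_zero : RegAt (0 : C.functionField) x := ⟨0, map_zero _⟩

theorem regAt_one : RegAt (1 : C.functionField) x := ⟨1, map_one _⟩

theorem regAt_genericPoint (f : C.functionField) : RegAt f (genericPoint C) := by
  obtain ⟨V, hV, s, hs⟩ := C.presheaf.exists_germ_eq f
  have : Nonempty V := ⟨⟨_, hV⟩⟩
  refine ⟨C.presheaf.germ V (genericPoint C) hV s, ?_⟩
  rw [Scheme.algebraMap_germ_eq_germToFunctionField]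
  exact hs

/-- every section over a nonempty open represents a rational function -/
theorem exists_isSec (U : C.Opens) (s : Γ(C, U)) : ∃ f : C.functionField, IsSec f U s := by
  by_cases h : Nonempty U
  · exact ⟨toK U s, isSec_iff_toK.mpr rfl⟩
  · exact ⟨0, fun x hx => (h ⟨⟨x, hx⟩⟩).elim⟩

theorem IsSec.regAt (hs : IsSec f U s) (hx : x ∈ U) : RegAt f x := ⟨_, hs x hx⟩

/-- a function regular at `x` is a section on a neighbourhood of `x` -/
theorem RegAt.exists_isSec (hf : RegAt f x) :
    ∃ (V : C.Opens) (_ : x ∈ V) (s : Γ(C, V)), IsSec f V s := by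
  obtain ⟨t, rfl⟩ := hf
  obtain ⟨V, hV, s, rfl⟩ := C.presheaf.exists_germ_eq t
  have : Nonempty V := ⟨⟨_, hV⟩⟩
  refine ⟨V, hV, s, ?_⟩
  rw [isSec_iff_toK, Scheme.algebraMap_germ_eq_germToFunctionField]
  rfl

/-- gluing -/
theorem regOn_iff : RegOn f U ↔ ∀ x ∈ U, RegAt f x := by
  constructor
  · rintro ⟨s, hs⟩ x hx
    exact hs.regAt hx
  · intro h
    choose W hxW σ hσ using fun x : U => (h x.1 x.2).exists_isSec
    let W' : U → C.Opens := fun x => W x ⊓ U
    let σ' : ∀ x : U, Γ(C, W' x) := fun x =>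
      C.presheaf.map (homOfLE (inf_le_left : W x ⊓ U ≤ W x)).op (σ x)
    have hσ' : ∀ x : U, IsSec f (W' x) (σ' x) := fun x => (hσ x).res _
    have hcompat : TopCat.Presheaf.IsCompatible C.sheaf.1 W' σ' := by
      intro i j
      exact IsSec.unique ((hσ' i).res inf_le_left) ((hσ' j).res inf_le_right)
    obtain ⟨s, hs, -⟩ := C.sheaf.existsUnique_gluing' W' U
      (fun i => homOfLE inf_le_right)
      (fun x hx => Opens.mem_iSup.mpr ⟨⟨x, hx⟩, hxW ⟨x, hx⟩, hx⟩) σ' hcompat
    refine ⟨s, ?_⟩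
    intro x hx
    have h1 := hσ' ⟨x, hx⟩ x ⟨hxW ⟨x, hx⟩, hx⟩
    rw [← hs ⟨x, hx⟩] at h1
    rw [← h1]
    congr 1
    exact (TopCat.Presheaf.germ_res_apply C.presheaf _ x _ s).symm

theorem mem_dom : x ∈ dom f ↔ RegAt f x := by
  constructor
  · intro h
    obtain ⟨W, hW, hxW⟩ := Opens.mem_sSup.mp h
    exact regOn_iff.mp hW x hxW
  · intro h
    obtain ⟨V, hxV, s, hs⟩ := h.exists_isSec
    exact Opens.mem_sSup.mpr ⟨V, ⟨s, hs⟩, hxV⟩

theorem regOn_dom (f : C.functionField) : RegOn f (dom f) :=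
  regOn_iff.mpr fun _ hx => mem_dom.mp hx

theorem genericPoint_mem_dom (f : C.functionField) : genericPoint C ∈ dom f :=
  mem_dom.mpr (regAt_genericPoint f)

instance (f : C.functionField) : Nonempty (dom f) := ⟨⟨_, genericPoint_mem_dom f⟩⟩

theorem dom_ne_bot (f : C.functionField) : dom f ≠ ⊥ := by
  intro h
  have := genericPoint_mem_dom f
  rw [h] at this
  exact this

/-- the germ of a section is a unit iff the inverse function is regular -/
theorem IsSec.isUnit_germ_iff (hs : IsSec f U s) (hx : x ∈ U) :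
    IsUnit (C.presheaf.germ U x hx s) ↔ f ≠ 0 ∧ RegAt f⁻¹ x := by
  constructor
  · intro h
    obtain ⟨t', ht'⟩ := h.exists_right_inv
    have h1 : f * algebraMap (C.presheaf.stalk x) C.functionField t' = 1 := by
      rw [← hs x hx, ← map_mul, ht', map_one]
    have hf : f ≠ 0 := left_ne_zero_of_mul_eq_one h1
    exact ⟨hf, t', (eq_inv_of_mul_eq_one_right h1)⟩
  · rintro ⟨hf, t', ht'⟩
    refine IsUnit.of_mul_eq_one t' ?_
    apply reg_algebraMap_injective x
    rw [map_mul, hs x hx, ht', map_one, mul_inv_cancel₀ hf]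

theorem IsSec.mem_basicOpen_iff (hs : IsSec f U s) :
    x ∈ C.basicOpen s ↔ x ∈ U ∧ f ≠ 0 ∧ RegAt f⁻¹ x := by
  constructor
  · intro h
    have hx : x ∈ U := C.basicOpen_le s h
    exact ⟨hx, (hs.isUnit_germ_iff hx).mp ((C.mem_basicOpen s x hx).mp h)⟩
  · rintro ⟨hx, h⟩
    exact (C.mem_basicOpen s x hx).mpr ((hs.isUnit_germ_iff hx).mpr h)

end

/-- the canonical section of `f` on its domain of definition -/
noncomputable def sec (f : C.functionField) : Γ(C, dom f) := (regOn_dom f).choose

theorem isSec_sec (f : C.functionField) : IsSec f (dom f) (sec f) := (regOn_dom f).choose_spec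

theorem basicOpen_sec {f : C.functionField} (hf : f ≠ 0) :
    C.basicOpen (sec f) = dom f ⊓ dom f⁻¹ := by
  ext x
  change x ∈ C.basicOpen (sec f) ↔ x ∈ dom f ∧ x ∈ dom f⁻¹
  rw [(isSec_sec f).mem_basicOpen_iff, mem_dom (f := f⁻¹)]
  exact ⟨fun h => ⟨h.1, h.2.2⟩, fun h => ⟨h.1, hf, h.2⟩⟩

theorem basicOpen_sec_inv {f : C.functionField} (hf : f ≠ 0) :
    C.basicOpen (sec f⁻¹) = dom f ⊓ dom f⁻¹ := by
  rw [basicOpen_sec (inv_ne_zero hf), inv_inv, inf_comm]

theorem isSec_kΓ (a : k) (U : C.Opens) : IsSec (kK c a) U (kΓ c U a) := by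
  have htop : IsSec (kK c a) ⊤ (kΓ c ⊤ a) := by
    have : Nonempty (⊤ : C.Opens) := ⟨⟨genericPoint C, trivial⟩⟩
    rw [isSec_iff_toK]
    rfl
  have := htop.res (le_top : U ≤ ⊤)
  rwa [res_kΓ] at this

theorem regAt_kK (a : k) (x : C) : RegAt (kK c a) x :=
  (isSec_kΓ c a ⊤).regAt trivial

theorem algebraMap_kStalk (a : k) (x : C) :
    algebraMap (C.presheaf.stalk x) C.functionField (kStalk c x a) = kK c a :=
  isSec_kΓ c a ⊤ x trivial

theorem NonConst.ne_zero {f : C.functionField} (hf : NonConst c f) : f ≠ 0 := by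
  intro h
  exact hf 0 (by rw [h, map_zero])

theorem NonConst.inv {f : C.functionField} (hf : NonConst c f) : NonConst c f⁻¹ := by
  intro a h
  apply hf a⁻¹
  rw [map_inv₀, ← h, inv_inv]

theorem NonConst.sub_const {f : C.functionField} (hf : NonConst c f) (a : k) :
    NonConst c (f - kK c a) := by
  intro b h
  apply hf (b + a)
  rw [map_add, ← h, sub_add_cancel]

/-- a function with a pole is not constant -/
theorem nonConst_of_not_regAt {f : C.functionField} {x : C} (hf : ¬ RegAt f x) : NonConst c f := by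
  intro a h
  exact hf (h ▸ regAt_kK c a x)

/-- polynomials in a section -/
theorem IsSec.polyΓ {f : C.functionField} {U : C.Opens} {s : Γ(C, U)} (hs : IsSec f U s)
    (p : Polynomial k) : IsSec (p.eval₂ (kK c) f) U (p.eval₂ (kΓ c U) s) := by
  induction p using Polynomial.induction_on' with
  | add p q hp hq =>
    rw [Polynomial.eval₂_add, Polynomial.eval₂_add]
    exact hp.add hq
  | monomial n a =>
    rw [Polynomial.eval₂_monomial, Polynomial.eval₂_monomial]
    exact (isSec_kΓ c a U).mul (hs.pow n)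

end Fermat.Agent.S25.Geom
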