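/- S25 block G: the basic facts on a smooth proper curve (assembly). -/
import Fermat.Agent.S25.Geom.Facts.Charts
import Fermat.Agent.S25.Geom.Facts.Val
import Fermat.Agent.S25.Geom.Facts.Cofinite
import Fermat.Agent.S25.Geom.Facts.ResField
import Fermat.Agent.S25.Geom.Facts.Const

set_option autoImplicit false

universe u

open CategoryTheory CategoryTheory.Limits AlgebraicGeometry TopologicalSpace

namespace Fermat.Agent.S25.Geom

variable {k : Type u} [Field k] {C : Scheme.{u}} (c : C ⟶ Spec (CommRingCat.of k))

variable [IsIntegral C]

theorem curveFacts [IsAlgClosed k] [IsProper c] [SmoothOfRelativeDimension 1 c] : CurveFacts c :=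
  have H := dedekindCharts c
  have : CompactSpace C := by
    have : QuasiCompact c := inferInstance
    exact (quasiCompact_iff_compactSpace (f := c)).mp this
  { val := H.val
    cofinite := H.cofinite
    resField := H.resField
    const := const_of_isProper c
    nonconst := H.nonconst }

end Fermat.Agent.S25.Geom
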