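/- S25 block G, node E6: a non-constant function defines a FINITE morphism `dom f ⟶ 𝔸¹`. -/
import Fermat.Agent.S25.Geom.Reg
import Fermat.Agent.S25.Geom.Finite.SecMap
import Fermat.Agent.S25.Geom.Finite.Trans
import Fermat.Agent.S25.Geom.Finite.Valuative
import Fermat.Agent.S25.Geom.Finite.Fibre

set_option autoImplicit false

universe u

open CategoryTheory CategoryTheory.Limits AlgebraicGeometry TopologicalSpace

namespace Fermat.Agent.S25.Geom

variable {k : Type u} [Field k] {C : Scheme.{u}} (c : C ⟶ Spec (CommRingCat.of k))

variable [IsIntegral C]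

/-- Node E6. -/
theorem isFinite_secMap [IsAlgClosed k] [IsProper c] (F : CurveFacts c) {f : C.functionField}
    (hf : NonConst c f) : IsFinite (secMap c (dom f) (sec f)) := by
  set W := dom f with hW
  set φ := secMap c W (sec f) with hφ
  set g : Spec (CommRingCat.of (Polynomial k)) ⟶ Spec (CommRingCat.of k) :=
    Spec.map (CommRingCat.ofHom (Polynomial.C : k →+* Polynomial k)) with hg
  have hcomp : φ ≫ g = W.ι ≫ c := secMap_comp c W (sec f)
  have : IsLocallyNoetherian C := LocallyOfFiniteType.isLocallyNoetherian c
  have hsep : IsSeparated (φ ≫ g) := by rw [hcomp]; infer_instance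
  have hft : LocallyOfFiniteType (φ ≫ g) := by rw [hcomp]; infer_instance
  have hqc : QuasiCompact (φ ≫ g) := by rw [hcomp]; infer_instance
  have : IsSeparated φ := IsSeparated.of_comp φ g
  have : LocallyOfFiniteType φ := locallyOfFiniteType_of_comp φ g
  have : QuasiCompact φ := QuasiCompact.of_comp φ g
  have : UniversallyClosed φ :=
    UniversallyClosed.of_valuativeCriterion φ (existence_secMap c F.val f)
  have : IsProper φ := {}
  have : LocallyQuasiFinite φ :=
    LocallyQuasiFinite.of_finite_preimage_singleton φ (finite_fibre_secMap c F hf)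
  exact IsFinite.of_isProper_of_locallyQuasiFinite φ

theorem finite_chart [IsAlgClosed k] [IsProper c] (F : CurveFacts c) {f : C.functionField}
    (hf : NonConst c f) : IsAffineOpen (dom f) ∧
      (Polynomial.aeval (R := k) (show Sec c (dom f) from sec f)).toRingHom.Finite :=
  of_isFinite_secMap c _ _ (isFinite_secMap c F hf)

end Fermat.Agent.S25.Geom
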