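/-
S25 block G, node P: the pair of charts `dom f`, `dom f⁻¹`.  (task S25-G-P, helper142)
-/
import Fermat.Agent.S25.Geom.Reg

set_option autoImplicit false

universe u

open CategoryTheory CategoryTheory.Limits AlgebraicGeometry TopologicalSpace

namespace Fermat.Agent.S25.Geom

variable {k : Type u} [Field k] {C : Scheme.{u}} (c : C ⟶ Spec (CommRingCat.of k)) [IsIntegral C]

theorem dom_sup_dom_inv (val : ∀ (x : C) (f : C.functionField), RegAt f x ∨ RegAt f⁻¹ x)
    (f : C.functionField) : dom f ⊔ dom f⁻¹ = ⊤ := by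
  rw [eq_top_iff]
  intro x _
  rcases val x f with h | h
  · exact Or.inl (mem_dom.mpr h)
  · exact Or.inr (mem_dom.mpr h)

theorem isAffineOpen_dom_inf {f : C.functionField} (hf : f ≠ 0) (h₁ : IsAffineOpen (dom f)) :
    IsAffineOpen (dom f ⊓ dom f⁻¹) := by
  rw [← basicOpen_sec hf]
  exact h₁.basicOpen (sec f)

theorem away_left {f : C.functionField} (hf : f ≠ 0) (h₁ : IsAffineOpen (dom f)) :
    IsLocalization.Away (show Sec c (dom f) from sec f) (Sec c (dom f ⊓ dom f⁻¹)) :=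
  h₁.isLocalization_of_eq_basicOpen (sec f) (homOfLE inf_le_left) (basicOpen_sec hf).symm

theorem away_right {f : C.functionField} (hf : f ≠ 0) (h₂ : IsAffineOpen (dom f⁻¹)) :
    IsLocalization.Away (show Sec c (dom f⁻¹) from sec f⁻¹) (Sec c (dom f ⊓ dom f⁻¹)) :=
  h₂.isLocalization_of_eq_basicOpen (sec f⁻¹) (homOfLE inf_le_right) (basicOpen_sec_inv hf).symm

theorem sec_mul_sec_inv {f : C.functionField} (hf : f ≠ 0) :
    algebraMap (Sec c (dom f)) (Sec c (dom f ⊓ dom f⁻¹)) (sec f) *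
      algebraMap (Sec c (dom f⁻¹)) (Sec c (dom f ⊓ dom f⁻¹)) (sec f⁻¹) = 1 := by
  have h1 := (isSec_sec f).res (inf_le_left : dom f ⊓ dom f⁻¹ ≤ dom f)
  have h2 := (isSec_sec f⁻¹).res (inf_le_right : dom f ⊓ dom f⁻¹ ≤ dom f⁻¹)
  have h3 := h1.mul h2
  rw [mul_inv_cancel₀ hf] at h3
  exact h3.unique isSec_one

/-- sections over `U` and `V` agreeing on `U ⊓ V`, where `U ⊔ V = ⊤`, are constant -/
theorem const_of_cover (const : ∀ s : Γ(C, ⊤), ∃ a : k, s = kΓ c ⊤ a) {U V : C.Opens}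
    (hUV : U ⊔ V = ⊤) (b₁ : Sec c U) (b₂ : Sec c V)
    (h : algebraMap (Sec c U) (Sec c (U ⊓ V)) b₁ = algebraMap (Sec c V) (Sec c (U ⊓ V)) b₂) :
    ∃ a : k, b₁ = algebraMap k (Sec c U) a := by
  -- it suffices to find a rational function `g`, regular everywhere, represented by `b₁` on `U`
  suffices H : ∃ g : C.functionField, IsSec g U (show Γ(C, U) from b₁) ∧ ∀ x : C, RegAt g x by
    obtain ⟨g, hg, hreg⟩ := H
    obtain ⟨S, hS⟩ := (regOn_iff (U := ⊤)).mpr fun x _ => hreg x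
    obtain ⟨a, rfl⟩ := const S
    refine ⟨a, ?_⟩
    have h1 := hS.res (le_top : U ≤ ⊤)
    rw [res_kΓ] at h1
    exact hg.unique h1
  obtain ⟨g₁, hg₁⟩ := exists_isSec U (show Γ(C, U) from b₁)
  obtain ⟨g₂, hg₂⟩ := exists_isSec V (show Γ(C, V) from b₂)
  by_cases hU : Nonempty U
  · by_cases hV : Nonempty V
    · have hη : genericPoint C ∈ U ⊓ V := ⟨reg_genericPoint_mem, reg_genericPoint_mem⟩
      have e1 := hg₁.res (inf_le_left : U ⊓ V ≤ U)
      have e2 := hg₂.res (inf_le_right : U ⊓ V ≤ V)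
      have e : g₁ = g₂ := by
        refine IsSec.eq_of_mem e1 ?_ hη
        have h' : C.presheaf.map (homOfLE (inf_le_left : U ⊓ V ≤ U)).op (show Γ(C, U) from b₁) =
          C.presheaf.map (homOfLE (inf_le_right : U ⊓ V ≤ V)).op (show Γ(C, V) from b₂) := h
        rw [h']
        exact e2
      refine ⟨g₁, hg₁, fun x => ?_⟩
      have hx : x ∈ U ⊔ V := hUV ▸ Opens.mem_top x
      rcases hx with hx | hx
      · exact hg₁.regAt hx
      · exact e ▸ hg₂.regAt hx
    · refine ⟨g₁, hg₁, fun x => ?_⟩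
      have hx : x ∈ U ⊔ V := hUV ▸ Opens.mem_top x
      rcases hx with hx | hx
      · exact hg₁.regAt hx
      · exact (hV ⟨⟨x, hx⟩⟩).elim
  · exact ⟨0, fun x hx => (hU ⟨⟨x, hx⟩⟩).elim, fun x => regAt_zero⟩

theorem isDomain_sec (U : C.Opens) [Nonempty U] : IsDomain (Sec c U) :=
  inferInstanceAs (IsDomain Γ(C, U))

end Fermat.Agent.S25.Geom
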