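import Mathlib

/-!
# S25 block G, node G-I: a function with a single pole (pure commutative algebra)
Proof: helper195.
-/

set_option linter.unusedSectionVars false

universe u

namespace Fermat.Agent.S25.Geom

namespace PoleAlg

open Polynomial

/-- `B ⧸ (y ^ M)` is a finite-dimensional `k`-algebra if `B` is finite over `k[y]`. -/
theorem finite_quot (k B : Type u) [Field k] [CommRing B] [Algebra k B] (y : B)
    (fin : (Polynomial.aeval (R := k) y).toRingHom.Finite) (M : ℕ) :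
    Module.Finite k (B ⧸ Ideal.span {y ^ M}) := by
  set I : Ideal B := Ideal.span {y ^ M} with hI
  set J : Ideal k[X] := Ideal.span {(X : k[X]) ^ M} with hJ
  have h1 : ((Ideal.Quotient.mk I).comp (Polynomial.aeval (R := k) y).toRingHom).Finite :=
    (RingHom.Finite.of_surjective _ Ideal.Quotient.mk_surjective).comp fin
  have hker : ∀ a ∈ J, ((Ideal.Quotient.mk I).comp (Polynomial.aeval (R := k) y).toRingHom) a = 0 := by
    intro a ha
    obtain ⟨c, rfl⟩ := Ideal.mem_span_singleton'.mp ha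
    rw [RingHom.comp_apply, Ideal.Quotient.eq_zero_iff_mem]
    simp only [AlgHom.toRingHom_eq_coe, RingHom.coe_coe, map_mul, map_pow, aeval_X]
    exact Ideal.mul_mem_left _ _ (Ideal.mem_span_singleton_self _)
  let φ : k[X] ⧸ J →+* B ⧸ I := Ideal.Quotient.lift J _ hker
  have h2 : φ.comp (Ideal.Quotient.mk J) =
      (Ideal.Quotient.mk I).comp (Polynomial.aeval (R := k) y).toRingHom := by
    ext a <;> simp [φ]
  have h3 : φ.Finite := RingHom.Finite.of_comp_finite (f := Ideal.Quotient.mk J) (by rw [h2]; exact h1)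
  have h4 : (algebraMap k (k[X] ⧸ J)).Finite :=
    RingHom.finite_algebraMap.mpr (monic_X_pow M).finite_quotient
  have h5 : (φ.comp (algebraMap k (k[X] ⧸ J))).Finite := h3.comp h4
  have h6 : φ.comp (algebraMap k (k[X] ⧸ J)) = algebraMap k (B ⧸ I) := by
    ext a
    have : algebraMap k (k[X] ⧸ J) a = Ideal.Quotient.mk J (C a) := rfl
    rw [RingHom.comp_apply, this]
    simp [φ]
  rw [h6] at h5
  exact RingHom.finite_algebraMap.mp h5

/-- Step 2: an "idempotent modulo `y ^ M`" isolating the point `e₀` among the zeros of `y`. -/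
theorem exists_idem (k B : Type u) [Field k] [CommRing B] [Algebra k B] (y : B) (e₀ : B →ₐ[k] k)
    (fin : (Polynomial.aeval (R := k) y).toRingHom.Finite) (hy : e₀ y = 0) (M : ℕ) (hM : 1 ≤ M) :
    ∃ u₀ z : B, e₀ u₀ = 1 ∧ u₀ * (1 - u₀) = y ^ M * z ∧
      ∀ 𝔮 : Ideal B, 𝔮.IsPrime → y ∈ 𝔮 → 1 - u₀ ∈ 𝔮 → 𝔮 = RingHom.ker e₀ := by
  set I : Ideal B := Ideal.span {y ^ M} with hI
  have hfin : Module.Finite k (B ⧸ I) := finite_quot k B y fin M
  have hart : IsArtinianRing (B ⧸ I) := IsArtinianRing.of_finite k (B ⧸ I)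
  have hnoe : IsNoetherianRing (B ⧸ I) := isNoetherian_of_tower k inferInstance
  have hker : ∀ a ∈ I, e₀ a = 0 := by
    intro a ha
    obtain ⟨c, rfl⟩ := Ideal.mem_span_singleton'.mp ha
    rw [map_mul, map_pow, hy, zero_pow (by omega), mul_zero]
  let e' : B ⧸ I →ₐ[k] k := Ideal.Quotient.liftₐ I e₀ hker
  have he' : ∀ b : B, e' (Ideal.Quotient.mk I b) = e₀ b := fun b => rfl
  set 𝔪 : Ideal (B ⧸ I) := RingHom.ker e' with h𝔪
  let f : ℕ →o (Ideal (B ⧸ I))ᵒᵈ :=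
    ⟨fun n => OrderDual.toDual (𝔪 ^ n), fun a b hab => Ideal.pow_le_pow_right hab⟩
  obtain ⟨N, hN⟩ := IsArtinian.monotone_stabilizes f
  have hN' : ∀ m, N ≤ m → 𝔪 ^ N = 𝔪 ^ m := fun m hm => hN m hm
  have hidem : IsIdempotentElem (𝔪 ^ (N + 1)) := by
    show 𝔪 ^ (N + 1) * 𝔪 ^ (N + 1) = 𝔪 ^ (N + 1)
    rw [← pow_add, ← hN' (N + 1 + (N + 1)) (by omega), ← hN' (N + 1) (by omega)]
  obtain ⟨ε, hε, hεI⟩ := (Ideal.isIdempotentElem_iff_of_fg _ (IsNoetherian.noetherian _)).mp hidem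
  have hεmem : ε ∈ 𝔪 ^ (N + 1) := by
    rw [hεI]; exact Submodule.mem_span_singleton_self ε
  have hε𝔪 : ε ∈ 𝔪 := Ideal.pow_le_self (by omega) hεmem
  obtain ⟨u, hu⟩ := Ideal.Quotient.mk_surjective ε
  have hu0 : e₀ u = 0 := by
    rw [← he', hu]; exact hε𝔪
  have hmem : (1 - u) * (1 - (1 - u)) ∈ I := by
    rw [← Ideal.Quotient.eq_zero_iff_mem]
    simp only [map_mul, map_sub, map_one, hu]
    have : ε * ε = ε := hε
    linear_combination -this
  obtain ⟨z, hz⟩ := Ideal.mem_span_singleton'.mp hmem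
  refine ⟨1 - u, z, by rw [map_sub, map_one, hu0, sub_zero], by rw [← hz, mul_comm], ?_⟩
  intro 𝔮 h𝔮 hy𝔮 hu𝔮
  have hu𝔮' : u ∈ 𝔮 := by simpa using hu𝔮
  have hI𝔮 : I ≤ 𝔮 := by
    rw [hI, Ideal.span_singleton_le_iff_mem]
    exact Ideal.pow_mem_of_mem _ hy𝔮 M (by omega)
  have hle : RingHom.ker e₀ ≤ 𝔮 := by
    intro t ht
    have ht' : Ideal.Quotient.mk I t ∈ 𝔪 := by
      show e' _ = 0
      rw [he']; exact ht
    have h1 : (Ideal.Quotient.mk I t) ^ (N + 1) ∈ 𝔪 ^ (N + 1) := Ideal.pow_mem_pow ht' _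
    rw [hεI] at h1
    obtain ⟨r, hr⟩ := Submodule.mem_span_singleton.mp h1
    obtain ⟨r', rfl⟩ := Ideal.Quotient.mk_surjective r
    have h2 : t ^ (N + 1) - r' * u ∈ I := by
      rw [← Ideal.Quotient.eq_zero_iff_mem, map_sub, map_pow, map_mul, hu, ← hr, smul_eq_mul,
        sub_self]
    have h3 : t ^ (N + 1) ∈ 𝔮 := by
      have := 𝔮.add_mem (hI𝔮 h2) (𝔮.mul_mem_left r' hu𝔮')
      simpa using this
    exact h𝔮.mem_of_pow_mem _ h3
  have hmax : (RingHom.ker e₀).IsMaximal :=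
    RingHom.ker_isMaximal_of_surjective e₀ (fun a => ⟨algebraMap k B a, by simp⟩)
  exact (hmax.eq_of_le h𝔮.ne_top hle).symm

/-- the image of `B` in `C` as a `k`-subspace -/
noncomputable abbrev rng (k B C : Type u) [Field k] [CommRing B] [CommRing C] [Algebra k B]
    [Algebra k C] [Algebra B C] [IsScalarTower k B C] : Submodule k C :=
  LinearMap.range (IsScalarTower.toAlgHom k B C).toLinearMap

theorem mem_rng {k B C : Type u} [Field k] [CommRing B] [CommRing C] [Algebra k B]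
    [Algebra k C] [Algebra B C] [IsScalarTower k B C] (b : B) : algebraMap B C b ∈ rng k B C :=
  ⟨b, rfl⟩

/-- Step 1: `H¹ = B₁₂ ⧸ (B₁ + B₂)` is finite-dimensional. -/
theorem finite_H1 (k B₁ B₂ B₁₂ : Type u) [Field k] [CommRing B₁] [CommRing B₂]
    [CommRing B₁₂] [Algebra k B₁] [Algebra k B₂] [Algebra k B₁₂] [Algebra B₁ B₁₂] [Algebra B₂ B₁₂]
    [IsScalarTower k B₁ B₁₂] [IsScalarTower k B₂ B₁₂] (x : B₁) (y : B₂)
    (away₁ : IsLocalization.Away x B₁₂) (away₂ : IsLocalization.Away y B₁₂)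
    (xy : algebraMap B₁ B₁₂ x * algebraMap B₂ B₁₂ y = 1)
    (fin₁ : (Polynomial.aeval (R := k) x).toRingHom.Finite) :
    Module.Finite k (B₁₂ ⧸ (rng k B₁ B₁₂ ⊔ rng k B₂ B₁₂)) := by
  classical
  set X : B₁₂ := algebraMap B₁ B₁₂ x with hX
  set Y : B₁₂ := algebraMap B₂ B₁₂ y with hY
  let Xu : B₁₂ˣ := ⟨X, Y, xy, by rw [mul_comm]; exact xy⟩
  have hXu : ∀ n : ℕ, ((Xu ^ (n : ℤ) : B₁₂ˣ) : B₁₂) = X ^ n := by
    intro n
    rw [zpow_natCast, Units.val_pow_eq_pow_val]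
  have hXu' : ∀ n : ℕ, ((Xu ^ (-(n : ℤ)) : B₁₂ˣ) : B₁₂) = Y ^ n := by
    intro n
    rw [zpow_neg, zpow_natCast, ← inv_pow, Units.val_pow_eq_pow_val]
    rfl
  let _ : Algebra k[X] B₁ := (Polynomial.aeval (R := k) x).toRingHom.toAlgebra
  have hfin : Module.Finite k[X] B₁ := fin₁
  obtain ⟨s, hs⟩ := hfin.fg_top
  have hk : ∀ b : B₁, ∃ (n : ℕ) (c : B₂),
      algebraMap B₁ B₁₂ b * Y ^ n = algebraMap B₂ B₁₂ c :=
    fun b => IsLocalization.Away.surj y (algebraMap B₁ B₁₂ b)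
  choose kk cc hkc using hk
  set N : ℕ := s.sup kk with hN
  set G : Finset B₁₂ := (Finset.range N ×ˢ s).image (fun mb => Y ^ mb.1 * algebraMap B₁ B₁₂ mb.2)
    with hG
  let D : Submodule k B₁₂ := rng k B₁ B₁₂ ⊔ rng k B₂ B₁₂ ⊔ Submodule.span k (G : Set B₁₂)
  have hD1 : ∀ b : B₁, algebraMap B₁ B₁₂ b ∈ D := fun b =>
    Submodule.mem_sup_left (Submodule.mem_sup_left (mem_rng b))
  have hD2 : ∀ b : B₂, algebraMap B₂ B₁₂ b ∈ D := fun b =>
    Submodule.mem_sup_left (Submodule.mem_sup_right (mem_rng b))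
  have hDG : ∀ g ∈ G, g ∈ D := fun g hg => Submodule.mem_sup_right (Submodule.subset_span hg)
  have hbase : ∀ b ∈ s, ∀ j : ℤ, ((Xu ^ j : B₁₂ˣ) : B₁₂) * algebraMap B₁ B₁₂ b ∈ D := by
    intro b hb j
    obtain ⟨n, rfl | rfl⟩ := j.eq_nat_or_neg
    · rw [hXu, hX, ← map_pow, ← map_mul]
      exact hD1 _
    · rw [hXu']
      by_cases hn : n < N
      · exact hDG _ (Finset.mem_image.mpr ⟨(n, b), Finset.mem_product.mpr
          ⟨Finset.mem_range.mpr hn, hb⟩, rfl⟩)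
      · have hkb : kk b ≤ n := le_trans (Finset.le_sup hb) (not_lt.mp hn)
        have : Y ^ n * algebraMap B₁ B₁₂ b = algebraMap B₂ B₁₂ (y ^ (n - kk b) * cc b) := by
          rw [map_mul, map_pow, ← hkc b, ← hY, mul_comm (algebraMap B₁ B₁₂ b), ← mul_assoc,
            ← pow_add, Nat.sub_add_cancel hkb]
        rw [this]
        exact hD2 _
  have hmulX : ∀ w : B₁₂, (∀ j : ℤ, ((Xu ^ j : B₁₂ˣ) : B₁₂) * w ∈ D) → ∀ (i : ℕ) (j : ℤ),
      ((Xu ^ j : B₁₂ˣ) : B₁₂) * (X ^ i * w) ∈ D := by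
    intro w hw i j
    have : ((Xu ^ j : B₁₂ˣ) : B₁₂) * (X ^ i * w) = ((Xu ^ (j + i) : B₁₂ˣ) : B₁₂) * w := by
      rw [zpow_add, Units.val_mul, hXu, mul_assoc]
    rw [this]
    exact hw _
  have hpoly : ∀ (p : k[X]) (b : B₁),
      (∀ j : ℤ, ((Xu ^ j : B₁₂ˣ) : B₁₂) * algebraMap B₁ B₁₂ b ∈ D) →
      ∀ j : ℤ, ((Xu ^ j : B₁₂ˣ) : B₁₂) * algebraMap B₁ B₁₂ (Polynomial.aeval x p * b) ∈ D := by
    intro p b hb j
    rw [map_mul, Polynomial.aeval_eq_sum_range, map_sum, Finset.sum_mul, Finset.mul_sum]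
    refine D.sum_mem fun i _ => ?_
    have : algebraMap B₁ B₁₂ (p.coeff i • x ^ i) * algebraMap B₁ B₁₂ b =
        p.coeff i • (X ^ i * algebraMap B₁ B₁₂ b) := by
      rw [Algebra.smul_def, map_mul, ← IsScalarTower.algebraMap_apply, map_pow, mul_assoc,
        ← Algebra.smul_def]
    rw [this, mul_smul_comm]
    exact D.smul_mem _ (hmulX _ hb i j)
  have hall : ∀ (b : B₁) (j : ℤ), ((Xu ^ j : B₁₂ˣ) : B₁₂) * algebraMap B₁ B₁₂ b ∈ D := by
    intro b
    have hb : b ∈ Submodule.span k[X] (s : Set B₁) := by rw [hs]; trivial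
    induction hb using Submodule.span_induction with
    | mem a ha => exact hbase a ha
    | zero => intro j; simp
    | add a b _ _ ha hb =>
      intro j
      rw [map_add, mul_add]
      exact D.add_mem (ha j) (hb j)
    | smul r a _ ha =>
      intro j
      have : r • a = Polynomial.aeval x r * a := by
        rw [Algebra.smul_def]; rfl
      rw [this]
      exact hpoly r a ha j
  have htop : ∀ w : B₁₂, w ∈ D := by
    intro w
    obtain ⟨n, b, hnb⟩ := IsLocalization.Away.surj x w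
    have : w = ((Xu ^ (-(n : ℤ)) : B₁₂ˣ) : B₁₂) * algebraMap B₁ B₁₂ b := by
      rw [hXu', ← hnb, ← hX, mul_comm, mul_assoc, ← mul_pow, xy, one_pow, mul_one]
    rw [this]
    exact hall b _
  have : Module.Finite k (Submodule.span k (G : Set B₁₂)) := Module.Finite.span_finset k G
  refine Module.Finite.of_surjective
    ((rng k B₁ B₁₂ ⊔ rng k B₂ B₁₂).mkQ.comp (Submodule.span k (G : Set B₁₂)).subtype) ?_
  intro h
  obtain ⟨w, rfl⟩ := Submodule.mkQ_surjective _ h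
  obtain ⟨a, ha, g, hg, rfl⟩ := Submodule.mem_sup.mp (htop w)
  refine ⟨⟨g, hg⟩, ?_⟩
  rw [LinearMap.comp_apply, Submodule.subtype_apply, map_add,
    (Submodule.Quotient.mk_eq_zero _).mpr ha |> fun h => (show (rng k B₁ B₁₂ ⊔ rng k B₂ B₁₂).mkQ a = 0 from h),
    zero_add]

end PoleAlg

open PoleAlg in
theorem exists_only_pole_alg (k B₁ B₂ B₁₂ : Type u) [Field k] [CommRing B₁] [CommRing B₂]
    [CommRing B₁₂] [Algebra k B₁] [Algebra k B₂] [Algebra k B₁₂] [Algebra B₁ B₁₂] [Algebra B₂ B₁₂]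
    [IsScalarTower k B₁ B₁₂] [IsScalarTower k B₂ B₁₂] (x : B₁) (y : B₂) (e₀ : B₂ →ₐ[k] k)
    (away₁ : IsLocalization.Away x B₁₂) (away₂ : IsLocalization.Away y B₁₂)
    (xy : algebraMap B₁ B₁₂ x * algebraMap B₂ B₁₂ y = 1)
    (fin₁ : (Polynomial.aeval (R := k) x).toRingHom.Finite)
    (fin₂ : (Polynomial.aeval (R := k) y).toRingHom.Finite)
    (hy : e₀ y = 0) :
    ∃ (n : ℕ) (b : B₁) (v u w : B₂), 1 ≤ n ∧ e₀ v ≠ 0 ∧
      algebraMap B₁ B₁₂ b * algebraMap B₂ B₁₂ y ^ n = algebraMap B₂ B₁₂ v ∧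
      algebraMap B₁ B₁₂ b * algebraMap B₂ B₁₂ u = algebraMap B₂ B₁₂ w ∧
      ∀ 𝔮 : Ideal B₂, 𝔮.IsPrime → y ∈ 𝔮 → u ∈ 𝔮 → 𝔮 = RingHom.ker e₀ := by
  classical
  have hH := finite_H1 k B₁ B₂ B₁₂ x y away₁ away₂ xy fin₁
  set S : Submodule k B₁₂ := rng k B₁ B₁₂ ⊔ rng k B₂ B₁₂ with hS
  set M : ℕ := Module.finrank k (B₁₂ ⧸ S) + 1 with hM
  obtain ⟨u₀, z, hu₀, hz, hprime⟩ := exists_idem k B₂ y e₀ fin₂ hy M (by omega)
  set X : B₁₂ := algebraMap B₁ B₁₂ x with hX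
  set Y : B₁₂ := algebraMap B₂ B₁₂ y with hY
  set U₀ : B₁₂ := algebraMap B₂ B₁₂ u₀ with hU₀
  have hsmul : ∀ (c : k) (t : B₂), algebraMap B₂ B₁₂ (c • t) = c • algebraMap B₂ B₁₂ t :=
    fun c t => map_smul (IsScalarTower.toAlgHom k B₂ B₁₂) c t
  have hXY : ∀ a c : ℕ, X ^ a * Y ^ (a + c) = Y ^ c := by
    intro a c
    rw [pow_add, ← mul_assoc, ← mul_pow, xy, one_pow, one_mul]
  let vv : Fin M → B₁₂ ⧸ S := fun i => S.mkQ (U₀ * X ^ (i.1 + 1))
  have hdep : ¬ LinearIndependent k vv := by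
    intro h
    have := h.fintype_card_le_finrank
    rw [Fintype.card_fin] at this
    omega
  obtain ⟨g, hg0, i₁, hi₁⟩ := Fintype.not_linearIndependent_iff.mp hdep
  have hmem : ∑ i, g i • (U₀ * X ^ (i.1 + 1)) ∈ S := by
    rw [← Submodule.Quotient.mk_eq_zero, ← Submodule.mkQ_apply, map_sum]
    simpa only [map_smul] using hg0
  obtain ⟨a₁, ⟨b, rfl⟩, a₂, ⟨b₂, rfl⟩, hsum⟩ := Submodule.mem_sup.mp hmem
  have hb : algebraMap B₁ B₁₂ b = ∑ i, g i • (U₀ * X ^ (i.1 + 1)) - algebraMap B₂ B₁₂ b₂ := by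
    rw [← hsum]
    simp
  let T : Finset (Fin M) := Finset.univ.filter (fun i => g i ≠ 0)
  have hT : T.Nonempty := ⟨i₁, by simp [T, hi₁]⟩
  set i₀ : Fin M := T.max' hT with hi₀def
  have hi₀ : g i₀ ≠ 0 := (Finset.mem_filter.mp (T.max'_mem hT)).2
  have hgt : ∀ i, i₀ < i → g i = 0 := by
    intro i hi
    by_contra h
    exact absurd (T.le_max' i (by simp [T, h])) (not_le.mpr hi)
  have h1 : ∀ i : Fin M, (g i • (U₀ * X ^ (i.1 + 1))) * Y ^ (i₀.1 + 1) =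
      algebraMap B₂ B₁₂ (if i ≤ i₀ then g i • (u₀ * y ^ (i₀.1 - i.1)) else 0) := by
    intro i
    by_cases hi : i ≤ i₀
    · have hi' : i.1 ≤ i₀.1 := hi
      rw [if_pos hi, hsmul, map_mul, map_pow, smul_mul_assoc, mul_assoc]
      have : i₀.1 + 1 = (i.1 + 1) + (i₀.1 - i.1) := by omega
      rw [this, hXY]
    · rw [if_neg hi, hgt i (not_le.mp hi), zero_smul, zero_mul, map_zero]
  have h2 : ∀ i : Fin M, (g i • (U₀ * X ^ (i.1 + 1))) * algebraMap B₂ B₁₂ (1 - u₀) =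
      algebraMap B₂ B₁₂ (g i • (z * y ^ (M - (i.1 + 1)))) := by
    intro i
    have hi : i.1 + 1 ≤ M := i.2
    have hU : U₀ * algebraMap B₂ B₁₂ (1 - u₀) = Y ^ M * algebraMap B₂ B₁₂ z := by
      rw [hU₀, ← map_mul, hz, map_mul, map_pow]
    have hYM : X ^ (i.1 + 1) * Y ^ M = Y ^ (M - (i.1 + 1)) := by
      have := hXY (i.1 + 1) (M - (i.1 + 1))
      rwa [Nat.add_sub_cancel' hi] at this
    rw [hsmul, map_mul, map_pow, smul_mul_assoc, mul_right_comm, hU]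
    congr 1
    rw [mul_right_comm, mul_comm (Y ^ M), hYM, mul_comm]
  refine ⟨i₀.1 + 1, b,
    ∑ i, (if i ≤ i₀ then g i • (u₀ * y ^ (i₀.1 - i.1)) else 0) - b₂ * y ^ (i₀.1 + 1),
    1 - u₀, ∑ i, g i • (z * y ^ (M - (i.1 + 1))) - b₂ * (1 - u₀), by omega, ?_, ?_, ?_, hprime⟩
  · rw [map_sub, map_sum, map_mul, map_pow, hy, zero_pow (by omega), mul_zero, sub_zero,
      Finset.sum_eq_single i₀]
    · rw [if_pos le_rfl, map_smul, map_mul, hu₀, Nat.sub_self, pow_zero, map_one, mul_one,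
        smul_eq_mul, mul_one]
      exact hi₀
    · intro i _ hi
      by_cases hle : i ≤ i₀
      · have hlt : i.1 < i₀.1 := lt_of_le_of_ne hle (fun h => hi (Fin.ext h))
        rw [if_pos hle, map_smul, map_mul, map_pow, hy, zero_pow (by omega), mul_zero, smul_zero]
      · rw [if_neg hle, map_zero]
    · intro h
      exact absurd (Finset.mem_univ _) h
  · rw [hb, sub_mul, Finset.sum_mul, map_sub, map_sum, map_mul, map_pow]
    congr 1
    exact Finset.sum_congr rfl fun i _ => h1 i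
  · rw [hb, sub_mul, Finset.sum_mul]
    conv_rhs => rw [map_sub, map_sum, map_mul]
    congr 1
    exact Finset.sum_congr rfl fun i _ => h2 i

end Fermat.Agent.S25.Geom
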