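/-
S25 block G, node G5: a rational function whose only pole is the marked point.
-/
import Fermat.Agent.S25.Geom.Reg
import Fermat.Agent.S25.Geom.Affine
import Fermat.Agent.S25.Geom.Finite
import Fermat.Agent.S25.Geom.Pair
import Fermat.Agent.S25.Geom.PoleAlg

set_option autoImplicit false

universe u

open CategoryTheory CategoryTheory.Limits AlgebraicGeometry TopologicalSpace

namespace Fermat.Agent.S25.Geom

variable {k : Type u} [Field k] {C : Scheme.{u}} (c : C ⟶ Spec (CommRingCat.of k)) [IsIntegral C]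

variable {c} {e : Spec (CommRingCat.of k) ⟶ C}

/-- Node G5a. some function has a pole at the marked point -/
theorem exists_pole (F : CurveFacts c) (he : e ≫ c = 𝟙 _) :
    ∃ f : C.functionField, ¬ RegAt f (pt e) := by
  obtain ⟨g, hg⟩ := F.nonconst
  obtain ⟨h, hh, ⟨t, ht⟩⟩ : ∃ h, NonConst c h ∧ RegAt h (pt e) := by
    rcases F.val (pt e) g with h | h
    · exact ⟨g, hg, h⟩
    · exact ⟨g⁻¹, hg.inv, h⟩
  obtain ⟨a, ha⟩ := exists_sub_kStalk_mem_maximalIdeal he t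
  refine ⟨(h - kK c a)⁻¹, ?_⟩
  rintro ⟨t', ht'⟩
  have hne : h - kK c a ≠ 0 := (hh.sub_const c a).ne_zero
  have h1 : (t - kStalk c (pt e) a) * t' = 1 := by
    apply IsFractionRing.injective (C.presheaf.stalk (pt e)) C.functionField
    rw [map_mul, map_sub, ht, ht', algebraMap_kStalk, map_one, mul_inv_cancel₀ hne]
  exact (IsLocalRing.mem_maximalIdeal _).mp ha (IsUnit.of_mul_eq_one _ h1)

omit [IsIntegral C] in
/-- points of an affine open are separated by basic opens -/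
theorem pole_eq_of_basicOpen {W : C.Opens} (hW : IsAffineOpen W) {x y : C} (hx : x ∈ W)
    (hy : y ∈ W) (h : ∀ s : Γ(C, W), x ∈ C.basicOpen s ↔ y ∈ C.basicOpen s) : x = y := by
  apply Inseparable.eq
  rw [inseparable_iff_forall_isOpen]
  intro V hV
  constructor
  · intro hxV
    obtain ⟨s, hs, hxs⟩ := hW.exists_basicOpen_le (V := ⟨V, hV⟩) ⟨x, hxV⟩ hx
    exact hs ((h s).mp hxs)
  · intro hyV
    obtain ⟨s, hs, hys⟩ := hW.exists_basicOpen_le (V := ⟨V, hV⟩) ⟨y, hyV⟩ hy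
    exact hs ((h s).mpr hys)

/-- Node G5b (uses `exists_only_pole_alg`, `finite_chart`, node P, node J). -/
theorem exists_only_pole [IsAlgClosed k] [IsProper c] (F : CurveFacts c) (he : e ≫ c = 𝟙 _) :
    ∃ f : C.functionField, ∀ x : C, RegAt f x ↔ x ≠ pt e := by
  obtain ⟨f₀, hpole⟩ := exists_pole F he
  have hnc : NonConst c f₀ := nonConst_of_not_regAt c hpole
  have hf0 : f₀ ≠ 0 := hnc.ne_zero
  have hmem : pt e ∈ dom f₀⁻¹ := mem_dom.mpr ((F.val _ f₀).resolve_left hpole)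
  have hpt := (pt_mem_iff e _).mpr hmem
  have aff₁ := (finite_chart c F hnc).1
  have aff₂ := (finite_chart c F hnc.inv).1
  have hy : evalAlg he (dom f₀⁻¹) hpt (sec f₀⁻¹) = 0 := by
    rw [evalAlg_apply, evalΓ_eq_zero_iff, (isSec_sec f₀⁻¹).mem_basicOpen_iff]
    rintro ⟨_, _, h⟩
    exact hpole (by rwa [inv_inv] at h)
  obtain ⟨n, b, v, u, w, hn, hv, h1, h2, h3⟩ := exists_only_pole_alg k (Sec c (dom f₀))
    (Sec c (dom f₀⁻¹)) (Sec c (dom f₀ ⊓ dom f₀⁻¹)) (sec f₀) (sec f₀⁻¹) (evalAlg he _ hpt)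
    (away_left c hf0 aff₁) (away_right c hf0 aff₂) (sec_mul_sec_inv c hf0)
    (finite_chart c F hnc).2 (finite_chart c F hnc.inv).2 hy
  obtain ⟨f, hf⟩ := exists_isSec (dom f₀) b
  obtain ⟨v', hv'⟩ := exists_isSec (dom f₀⁻¹) v
  obtain ⟨u', hu'⟩ := exists_isSec (dom f₀⁻¹) u
  obtain ⟨w', hw'⟩ := exists_isSec (dom f₀⁻¹) w
  have hη : genericPoint C ∈ dom f₀ ⊓ dom f₀⁻¹ :=
    ⟨genericPoint_mem_dom _, genericPoint_mem_dom _⟩
  have e1 : f * f₀⁻¹ ^ n = v' := by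
    have A : IsSec (f * f₀⁻¹ ^ n) (dom f₀ ⊓ dom f₀⁻¹)
        (algebraMap (Sec c (dom f₀)) (Sec c (dom f₀ ⊓ dom f₀⁻¹)) b *
          algebraMap (Sec c (dom f₀⁻¹)) (Sec c (dom f₀ ⊓ dom f₀⁻¹)) (sec f₀⁻¹) ^ n) :=
      (hf.res inf_le_left).mul (((isSec_sec f₀⁻¹).res inf_le_right).pow n)
    rw [h1] at A
    exact A.eq_of_mem (hv'.res inf_le_right) hη
  have e2 : f * u' = w' := by
    have A : IsSec (f * u') (dom f₀ ⊓ dom f₀⁻¹)
        (algebraMap (Sec c (dom f₀)) (Sec c (dom f₀ ⊓ dom f₀⁻¹)) b *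
          algebraMap (Sec c (dom f₀⁻¹)) (Sec c (dom f₀ ⊓ dom f₀⁻¹)) u) :=
      (hf.res inf_le_left).mul (hu'.res inf_le_right)
    rw [h2] at A
    exact A.eq_of_mem (hw'.res inf_le_right) hη
  -- `f` has a pole at the marked point
  have hP : ¬ RegAt f (pt e) := by
    intro hreg
    have hvP : pt e ∈ C.basicOpen v := by
      by_contra hcon
      exact hv ((evalΓ_eq_zero_iff e _ hpt v).mpr hcon)
    obtain ⟨-, hv0, hvinv⟩ := hv'.mem_basicOpen_iff.mp hvP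
    apply hpole
    have e3 : f₀ = f * f₀⁻¹ ^ (n - 1) * v'⁻¹ := by
      obtain ⟨m, rfl⟩ : ∃ m, n = m + 1 := ⟨n - 1, by omega⟩
      rw [← e1] at hv0 ⊢
      simp only [Nat.add_sub_cancel]
      rw [pow_succ, ← mul_assoc] at hv0 ⊢
      rw [mul_inv, inv_inv, ← mul_assoc, mul_inv_cancel₀ (left_ne_zero_of_mul hv0), one_mul]
    rw [e3]
    exact (hreg.mul ((mem_dom.mp hmem).pow _)).mul hvinv
  refine ⟨f, fun x => ⟨fun hx hxe => hP (hxe ▸ hx), fun hx => ?_⟩⟩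
  by_cases hx1 : x ∈ dom f₀
  · exact hf.regAt hx1
  have hx2 : x ∈ dom f₀⁻¹ := mem_dom.mpr ((F.val x f₀).resolve_left fun h => hx1 (mem_dom.mpr h))
  let 𝔮 : Ideal (Sec c (dom f₀⁻¹)) :=
    Ideal.comap (C.presheaf.germ (dom f₀⁻¹) x hx2).hom (IsLocalRing.maximalIdeal _)
  have h𝔮 : 𝔮.IsPrime := Ideal.comap_isPrime _ _
  have hmem𝔮 : ∀ s : Γ(C, dom f₀⁻¹), s ∈ 𝔮 ↔ x ∉ C.basicOpen s := by
    intro s
    rw [Scheme.mem_basicOpen _ _ _ hx2]
    exact IsLocalRing.mem_maximalIdeal _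
  have hy𝔮 : sec f₀⁻¹ ∈ 𝔮 := by
    rw [hmem𝔮, (isSec_sec f₀⁻¹).mem_basicOpen_iff]
    rintro ⟨_, _, h⟩
    exact hx1 (mem_dom.mpr (by rwa [inv_inv] at h))
  have hu𝔮 : u ∉ 𝔮 := by
    intro hu
    have h4 := h3 𝔮 h𝔮 hy𝔮 hu
    apply hx
    apply pole_eq_of_basicOpen aff₂ hx2 hmem
    intro s
    rw [← not_iff_not, ← hmem𝔮, h4]
    exact evalΓ_eq_zero_iff e _ hpt s
  have hxu : x ∈ C.basicOpen u := by
    by_contra hcon
    exact hu𝔮 ((hmem𝔮 u).mpr hcon)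
  obtain ⟨-, hu0, huinv⟩ := hu'.mem_basicOpen_iff.mp hxu
  have e4 : f = w' * u'⁻¹ := by
    rw [← e2]
    field_simp
  rw [e4]
  exact (hw'.regAt hx2).mul huinv

end Fermat.Agent.S25.Geom
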